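import Fermat.Agent.S24.Counting

/-!
# S36 / Mod / Unram / Count : a refinement of `S24.Counting.card_zeroPlaces_core`
TASK S36/M3-Count.

Same hypotheses as `S24.Counting.card_zeroPlaces_core` (a *package*: `n = [F : K(u)]` distinct `K`-embeddings `σ a : F → ℂ((T))`, `a ∈ X`, which agree
on `u`, `ord (σ a u) = E₀`, and `σ (γ₀ • a) = (T ↦ ζ T) ∘ σ a`).  Conclusions:
* `exists_emb` : every zero `v` of `u` is the place of some `σ a` : `ord (σ a f) = c * ord_v f`;
* `ord_eq_card_orbit` : if `v` is the place of `σ a` then `ord_v u = #(⟨γ₀⟩-orbit of a)`.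

PROOF.  COPY the proof of `card_zeroPlaces_core` (`S24/Counting.lean`, l. 307-500).  It constructs `v a`, `c a` (`hex`, `hv`), proves `hsurj`
(= `exists_emb`), `hvz` (`v` is constant on orbits), `hper` (`ord_{v a} u ≤` every period of `a`), and ends with
`card_eq_of_sums p hp (card of the orbit) (ord) (≤) (0 <) (equality of the two sums)`.
For `ord_eq_card_orbit` one needs the slightly stronger combinatorial fact
  `p : Q → Z` surjective, `f : Q → ℕ`, `g : Z → ℕ`, `g (p q) ≤ f q`, `0 < g z`, `∑ f = ∑ g`  ⟹  `∀ q, g (p q) = f q`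
(`∑_q f q ≥ ∑_q g (p q) = ∑_z #(p⁻¹ z) g z ≥ ∑_z g z`, so all inequalities are equalities; `Finset.sum_fiberwise`, `Finset.sum_le_sum`,
`Finset.sum_lt_sum`).  The uniqueness of the place attached to `σ a` : `S24.FF.eq_of_forall_ord_nonneg`.
The cardinality of the orbit: in `card_zeroPlaces_core` it appears as
`(Finset.univ.filter fun b => (Quotient.mk'' b : orbitRel.Quotient ..) = q).card`; `MulAction.orbitRel.Quotient.orbit_mk`, `Nat.card_eq_fintype_card`,
`MulAction.orbitRel_apply`.
-/

set_option autoImplicit false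

open AlgebraicCurve
open scoped IntermediateField

namespace Fermat.Agent.S36.Mod.Unram

open Fermat.Agent.S24 Fermat.Agent.S24.Counting
open Fermat.Agent.S24.FF hiding zeroPlaces ord_nonneg_of_isIntegral

/-- the strengthened combinatorial step. -/
theorem Count_eq_of_sums {Q Z : Type*} [Fintype Q] [Fintype Z] (p : Q → Z)
    (hp : Function.Surjective p) (s : Q → ℕ) (e : Z → ℕ) (hs : ∀ q, e (p q) ≤ s q)
    (hsum : ∑ q, s q = ∑ z, e z) : ∀ q, e (p q) = s q := by
  classical
  have h1 : ∑ q, e (p q) = ∑ z, (Finset.univ.filter fun q => p q = z).card • e z := by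
    have := Finset.sum_comp (s := (Finset.univ : Finset Q)) e p
    rw [this]
    have himg : (Finset.univ : Finset Q).image p = Finset.univ := by
      ext z; simpa using hp z
    rw [himg]
  have h2 : ∀ z, e z ≤ (Finset.univ.filter fun q => p q = z).card • e z := by
    intro z
    obtain ⟨q, hq⟩ := hp z
    have : 0 < (Finset.univ.filter fun q => p q = z).card :=
      Finset.card_pos.mpr ⟨q, by simp [hq]⟩
    rw [smul_eq_mul]
    exact Nat.le_mul_of_pos_left _ this
  have h3 : ∑ q, e (p q) ≤ ∑ q, s q := Finset.sum_le_sum fun q _ => hs q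
  have h4 : ∑ z, e z ≤ ∑ z, (Finset.univ.filter fun q => p q = z).card • e z :=
    Finset.sum_le_sum fun z _ => h2 z
  have h5 : ∑ q, e (p q) = ∑ q, s q := by
    apply le_antisymm h3
    rw [hsum, h1]
    exact h4
  have h6 := (Finset.sum_eq_sum_iff_of_le fun q _ => hs q).mp h5
  exact fun q => h6 q (Finset.mem_univ q)

variable {K F : Type*} [Field K] [IsAlgClosed K] [CharZero K] [Field F] [Algebra K F]
  [Algebra K ℂ]

omit [IsAlgClosed K] [CharZero K] in
/-- the place attached to an embedding. -/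
theorem Count_exists_place (u : F) (hu0 : u ≠ 0) (τ : F →ₐ[K] LaurentSeries ℂ)
    (hord : (τ u).order ≠ 0) :
    ∃ (v : Place K F) (c : ℕ), 0 < c ∧ ∀ f, f ≠ 0 → (τ f).order = c * v.ord f := by
  have hσne : ∀ (f : F), f ≠ 0 → τ f ≠ 0 := fun f hf =>
    (map_ne_zero_iff _ τ.toRingHom.injective).mpr hf
  refine exists_place_of_ordFun (fun f => (τ f).order) ?_ ?_ ?_ ?_
  · intro f g hf hg
    show (τ (f * g)).order = _
    rw [map_mul, HahnSeries.order_mul (hσne f hf) (hσne g hg)]
  · intro f g hf hg hfg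
    show _ ≤ (τ (f + g)).order
    rw [map_add]
    apply HahnSeries.min_order_le_order_add
    rw [← map_add]
    exact hσne _ hfg
  · intro c _
    show (τ (algebraMap K F c)).order = 0
    have h : algebraMap K (LaurentSeries ℂ) c = HahnSeries.C (algebraMap K ℂ c) := by
      rw [HahnSeries.algebraMap_apply', PowerSeries.algebraMap_apply,
        HahnSeries.ofPowerSeries_C]
    rw [AlgHom.commutes, h, HahnSeries.order_C]
  · exact ⟨u, hu0, hord⟩

/-- every zero of `u` comes from an embedding. -/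
theorem Count_surj (u : F) (hu : Transcendental K u) [FiniteDimensional K⟮u⟯ F]
    {X : Type*} [Finite X]
    (σ : X → F →ₐ[K] LaurentSeries ℂ) (hσ : Function.Injective σ)
    (hcard : Nat.card X = Module.finrank K⟮u⟯ F)
    (hσu : ∀ a b, σ a u = σ b u)
    (v : X → Place K F) (c : X → ℕ) (hc : ∀ a, 0 < c a)
    (hv : ∀ a f, f ≠ 0 → (σ a f).order = c a * (v a).ord f)
    (hvupos : ∀ a, 0 < (v a).ord u)
    (v' : Place K F) (hv' : 0 < v'.ord u) : ∃ a, v a = v' := by
  classical
  have : Fintype X := Fintype.ofFinite X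
  have hσne : ∀ a (f : F), f ≠ 0 → σ a f ≠ 0 := fun a f hf =>
    (map_ne_zero_iff _ (σ a).toRingHom.injective).mpr hf
  have hcZ : ∀ a, (0 : ℤ) < c a := fun a => by exact_mod_cast hc a
  have hXne : Nonempty X := by
    have : 0 < Nat.card X := by rw [hcard]; exact Module.finrank_pos
    exact (Nat.card_pos_iff.mp this).1
  obtain ⟨a₀⟩ := hXne
  by_contra hno
  rw [not_exists] at hno
  obtain ⟨f, hfint, hfv', hfs⟩ := exists_integral_avoid K u hu v' hv' (Finset.univ.image v)
    (by
      intro hmem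
      obtain ⟨a, -, ha⟩ := Finset.mem_image.mp hmem
      exact hno a ha)
    (by
      intro w hw
      obtain ⟨a, -, rfl⟩ := Finset.mem_image.mp hw
      exact hvupos a)
  have hf0 : f ≠ 0 := ne_zero_of_ord_ne_zero v' hfv'.ne'
  have h1 : ∀ a, (σ a f).order = 0 := fun a => by
    rw [hv a f hf0, hfs (v a) (Finset.mem_image_of_mem v (Finset.mem_univ a)), mul_zero]
  have h2 := sigma_norm_eq_prod u σ hσ (by rw [← hcard, Nat.card_eq_fintype_card]) hσu a₀ f
  have h3 : (σ a₀ ((Algebra.norm K⟮u⟯ f : K⟮u⟯) : F)).order = 0 := by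
    rw [h2]; exact order_prod_eq_zero _ _ (fun a _ => hσne a f hf0) (fun a _ => h1 a)
  have hN := ord_norm_pos v' hv'.le hfint hfv'
  have hN0 : ((Algebra.norm K⟮u⟯ f : K⟮u⟯) : F) ≠ 0 := ne_zero_of_ord_ne_zero v' hN.ne'
  rw [hv a₀ _ hN0] at h3
  have h4 : (v a₀).ord ((Algebra.norm K⟮u⟯ f : K⟮u⟯) : F) = 0 := by
    rcases mul_eq_zero.mp h3 with h | h
    · exact absurd h (hcZ a₀).ne'
    · exact h
  have h5 := ord_mul_ord_eq v' (v a₀) hv' (hvupos a₀) hu (Algebra.norm K⟮u⟯ f).2
  rw [h4, zero_mul] at h5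
  rcases mul_eq_zero.mp h5 with h | h
  · exact hN.ne' h
  · exact (hvupos a₀).ne' h

theorem exists_emb (u : F) (hu : Transcendental K u) [FiniteDimensional K⟮u⟯ F]
    {X : Type*} [Finite X]
    (σ : X → F →ₐ[K] LaurentSeries ℂ) (hσ : Function.Injective σ)
    (hcard : Nat.card X = Module.finrank K⟮u⟯ F)
    (hσu : ∀ a b, σ a u = σ b u)
    (E₀ : ℕ) (hE₀ : 0 < E₀) (hord : ∀ a, (σ a u).order = (E₀ : ℤ))
    (v : Place K F) (hv : 0 < v.ord u) :
    ∃ (a : X) (c : ℕ), 0 < c ∧ ∀ f, f ≠ 0 → (σ a f).order = c * v.ord f := by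
  have hu0 : u ≠ 0 := by
    rintro rfl
    exact hu (isAlgebraic_zero)
  have hex : ∀ a, ∃ (v : Place K F) (c : ℕ), 0 < c ∧
      ∀ f, f ≠ 0 → (σ a f).order = c * v.ord f := fun a =>
    Count_exists_place u hu0 (σ a) (by rw [hord]; exact_mod_cast hE₀.ne')
  choose w c hc hw using hex
  have hcZ : ∀ a, (0 : ℤ) < c a := fun a => by exact_mod_cast hc a
  have hvu : ∀ a, (c a : ℤ) * (w a).ord u = E₀ := fun a => by rw [← hw a u hu0, hord]
  have hvupos : ∀ a, 0 < (w a).ord u := by
    intro a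
    have h1 := hvu a
    have h2 := hcZ a
    have h3 : (0 : ℤ) < E₀ := by exact_mod_cast hE₀
    by_contra hneg
    rw [not_lt] at hneg
    nlinarith
  obtain ⟨a, rfl⟩ := Count_surj u hu σ hσ hcard hσu w c hc hw hvupos v hv
  exact ⟨a, c a, hc a, hw a⟩

theorem ord_eq_card_orbit (u : F) (hu : Transcendental K u) [FiniteDimensional K⟮u⟯ F]
    {G X : Type*} [Group G] [MulAction G X] [Finite X]
    (σ : X → F →ₐ[K] LaurentSeries ℂ) (hσ : Function.Injective σ)
    (hcard : Nat.card X = Module.finrank K⟮u⟯ F)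
    (hσu : ∀ a b, σ a u = σ b u)
    (E₀ : ℕ) (hE₀ : 0 < E₀) (hord : ∀ a, (σ a u).order = (E₀ : ℤ))
    (ζ : ℂ) (hζ : IsPrimitiveRoot ζ E₀) (γ₀ : G)
    (hΘ : ∀ a f (k : ℤ), (σ (γ₀ • a) f).coeff k = ζ ^ k * (σ a f).coeff k)
    (a : X) (v : Place K F) (c : ℕ) (hc : 0 < c)
    (hv : ∀ f, f ≠ 0 → (σ a f).order = c * v.ord f) :
    v.ord u = (Nat.card (MulAction.orbit (Subgroup.zpowers γ₀) a) : ℤ) := by
  classical
  have : Fintype X := Fintype.ofFinite X
  have hζ0 : ζ ≠ 0 := hζ.ne_zero hE₀.ne'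
  have hu0 : u ≠ 0 := by
    rintro rfl
    exact hu (isAlgebraic_zero)
  have hσne : ∀ a (f : F), f ≠ 0 → σ a f ≠ 0 := fun a f hf =>
    (map_ne_zero_iff _ (σ a).toRingHom.injective).mpr hf
  have hex : ∀ a, ∃ (v : Place K F) (c : ℕ), 0 < c ∧
      ∀ f, f ≠ 0 → (σ a f).order = c * v.ord f := fun a =>
    Count_exists_place u hu0 (σ a) (by rw [hord]; exact_mod_cast hE₀.ne')
  rename' v => v₁, c => c₁, hc => hc₁, hv => hv₁
  choose v c hc hv using hex
  have hcZ : ∀ a, (0 : ℤ) < c a := fun a => by exact_mod_cast hc a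
  have hvu : ∀ a, (c a : ℤ) * (v a).ord u = E₀ := fun a => by rw [← hv a u hu0, hord]
  have hvupos : ∀ a, 0 < (v a).ord u := by
    intro a
    have h1 := hvu a
    have h2 := hcZ a
    have h3 : (0 : ℤ) < E₀ := by exact_mod_cast hE₀
    by_contra hneg
    rw [not_lt] at hneg
    nlinarith
  -- the given place is the chosen one
  have hv₁a : v a = v₁ := by
    apply eq_of_forall_ord_nonneg
    intro f hf
    by_cases hf0 : f = 0
    · rw [hf0]; simp [Place.ord]
    have h1 := hv a f hf0
    have h2 := hv₁ f hf0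
    rw [h2] at h1
    have h3 := hcZ a
    have h4 : (0 : ℤ) < c₁ := by exact_mod_cast hc₁
    by_contra hneg
    rw [not_le] at hneg
    nlinarith
  -- invariance under `γ₀`
  have hvγ : ∀ a, v (γ₀ • a) = v a := by
    intro a
    apply eq_of_forall_ord_nonneg
    intro f hf
    by_cases hf0 : f = 0
    · rw [hf0]; simp [Place.ord]
    have h1 := hv (γ₀ • a) f hf0
    have h2 := hv a f hf0
    rw [order_eq_of_coeff hζ0 (hΘ a f), h2] at h1
    have h3 := hcZ a
    have h4 := hcZ (γ₀ • a)
    by_contra hneg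
    rw [not_le] at hneg
    nlinarith
  have hvz : ∀ (n : ℤ) (a : X), v (γ₀ ^ n • a) = v a := by
    intro n
    induction n using Int.induction_on with
    | zero => intro a; simp
    | succ n ih => intro a; rw [zpow_add_one, mul_smul, ih, hvγ]
    | pred n ih =>
      intro a
      rw [zpow_sub_one, mul_smul, ih]
      conv_rhs => rw [← smul_inv_smul γ₀ a]
      rw [hvγ]
  have hΘpow : ∀ (m : ℕ) a f (k : ℤ),
      (σ (γ₀ ^ m • a) f).coeff k = (ζ ^ k) ^ m * (σ a f).coeff k := by
    intro m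
    induction m with
    | zero => intro a f k; simp
    | succ m ih =>
      intro a f k
      rw [pow_succ', mul_smul, hΘ, ih, pow_succ']
      ring
  -- a period of `a` is a multiple of the ramification index
  have hper : ∀ (a : X) (m : ℕ), 0 < m → γ₀ ^ m • a = a → (v a).ord u ≤ m := by
    intro a m hm hma
    obtain ⟨π, hπ⟩ := exists_ord_eq_one (v a)
    have hπ0 : π ≠ 0 := ne_zero_of_ord_ne_zero (v a) (by rw [hπ]; exact one_ne_zero)
    have h1 : (σ a π).order = c a := by rw [hv a π hπ0, hπ, mul_one]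
    have h2 := hΘpow m a π (c a)
    rw [hma] at h2
    have h3 : (σ a π).coeff (c a) ≠ 0 := by
      rw [← h1]; exact HahnSeries.coeff_order_eq_zero.not.mpr (hσne a π hπ0)
    have h4 : (ζ ^ (c a : ℤ)) ^ m = 1 := by
      have : ((ζ ^ (c a : ℤ)) ^ m - 1) * (σ a π).coeff (c a) = 0 := by
        rw [sub_mul, one_mul, ← h2, sub_self]
      have := (mul_eq_zero.mp this).resolve_right h3
      exact sub_eq_zero.mp this
    rw [zpow_natCast, ← pow_mul] at h4
    have h5 : E₀ ∣ c a * m := hζ.dvd_of_pow_eq_one _ h4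
    obtain ⟨e, he⟩ : ∃ e : ℕ, (v a).ord u = e := ⟨((v a).ord u).toNat, by
      rw [Int.toNat_of_nonneg (hvupos a).le]⟩
    have h6 : c a * e = E₀ := by
      have := hvu a
      rw [he] at this
      exact_mod_cast this
    rw [← h6] at h5
    have h7 : e ∣ m := Nat.dvd_of_mul_dvd_mul_left (hc a) h5
    rw [he]
    exact_mod_cast Nat.le_of_dvd hm h7
  have hsurj : ∀ v' : Place K F, 0 < v'.ord u → ∃ a, v a = v' := fun v' hv' =>
    Count_surj u hu σ hσ hcard hσu v c hc hv hvupos v' hv'
  -- counting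
  have hZfin : (zeroPlaces K u).Finite := zeroPlaces_finite K u hu
  have hZsum : ∑ w ∈ hZfin.toFinset, w.ord u = (Module.finrank K⟮u⟯ F : ℤ) :=
    sum_ord_zeroPlaces K u hu
  have : Fintype (zeroPlaces K u) := hZfin.fintype
  have : Fintype (MulAction.orbitRel.Quotient (Subgroup.zpowers γ₀) X) := Fintype.ofFinite _
  let p : MulAction.orbitRel.Quotient (Subgroup.zpowers γ₀) X → zeroPlaces K u :=
    Quotient.lift (fun a => (⟨v a, hvupos a⟩ : zeroPlaces K u)) (by
      intro a b hab
      have hab' : a ∈ MulAction.orbit (Subgroup.zpowers γ₀) b := MulAction.orbitRel_apply.mp hab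
      obtain ⟨⟨g, n, rfl⟩, hg⟩ := hab'
      apply Subtype.ext
      show v a = v b
      rw [← hg]
      exact hvz n b)
  have hp : Function.Surjective p := by
    rintro ⟨v', hv'⟩
    obtain ⟨a, ha⟩ := hsurj v' hv'
    exact ⟨Quotient.mk'' a, Subtype.ext ha⟩
  have key := Count_eq_of_sums p hp
    (fun q => (Finset.univ.filter fun b : X =>
      (Quotient.mk'' b : MulAction.orbitRel.Quotient (Subgroup.zpowers γ₀) X) = q).card)
    (fun z => (z.1.ord u).toNat) ?_ ?_
  · have h1 := key (Quotient.mk'' a)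
    have h2 : ((v a).ord u).toNat = (Finset.univ.filter fun b : X =>
      (Quotient.mk'' b : MulAction.orbitRel.Quotient (Subgroup.zpowers γ₀) X)
        = Quotient.mk'' a).card := h1
    have h3 : (Finset.univ.filter fun b : X =>
      (Quotient.mk'' b : MulAction.orbitRel.Quotient (Subgroup.zpowers γ₀) X)
        = Quotient.mk'' a).card = Nat.card (MulAction.orbit (Subgroup.zpowers γ₀) a) := by
      rw [Nat.card_eq_fintype_card, ← Set.toFinset_card]
      congr 1
      ext b
      simp only [Set.mem_toFinset, Finset.mem_filter, Finset.mem_univ, true_and]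
      rw [Quotient.eq'']
      exact MulAction.orbitRel_apply
    rw [← hv₁a, ← h3, ← h2, Int.toNat_of_nonneg (hvupos a).le]
  · intro q
    induction q using Quotient.inductionOn' with
    | h a =>
      obtain ⟨m, hm, hma, hmc⟩ := exists_period γ₀ a
      have := hper a m hm hma
      show ((v a).ord u).toNat ≤ _
      rw [← hmc]
      omega
  · have h1 := Finset.card_eq_sum_card_fiberwise
      (f := fun b : X => (Quotient.mk'' b : MulAction.orbitRel.Quotient (Subgroup.zpowers γ₀) X))
      (s := Finset.univ) (t := Finset.univ)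
      (fun _ _ => Finset.mem_coe.mpr (Finset.mem_univ _))
    rw [← h1, Finset.card_univ, ← Nat.card_eq_fintype_card, hcard]
    have h2 : ((∑ z : zeroPlaces K u, (z.1.ord u).toNat : ℕ) : ℤ)
        = (Module.finrank K⟮u⟯ F : ℤ) := by
      rw [← hZsum, Nat.cast_sum,
        Finset.sum_subtype hZfin.toFinset (p := fun w => w ∈ zeroPlaces K u)
          (fun w => hZfin.mem_toFinset) (fun w => w.ord u)]
      refine Finset.sum_congr rfl fun z _ => ?_
      have : 0 < z.1.ord u := z.2
      exact Int.toNat_of_nonneg this.le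
    exact_mod_cast h2.symm

end Fermat.Agent.S36.Mod.Unram
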