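import Fermat.Agent.S24.Defs

/-!
# S36 / Mod / Unram / Free : no elliptic points at level `N` when `4 ∣ N` or `9 ∣ N`
TASK S36/M3-Free.

`XN N = SL₂(ℤ) ⧸ Γ₀(N)` with its left action.  `S • a ≠ a` and `(S T) • a ≠ a` for all `a`.

PROOF.  `a = g Γ₀(N)` (`QuotientGroup.induction_on`).  `γ • (g : XN N) = ((γ * g : SL(2,ℤ)) : XN N)` is `rfl`;
`QuotientGroup.eq : (a : G ⧸ s) = b ↔ a⁻¹ * b ∈ s`.  So a fixed point gives `δ := g⁻¹ * γ * g ∈ Γ₀(N)` (or its inverse), i.e.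
`(N : ℤ) ∣ δ 1 0` (`CongruenceSubgroup.Gamma0_mem`, `ZMod.intCast_zmod_eq_zero_iff_dvd` / `ZMod.intCast_eq_zero_iff..`).
With `g = !![a, b; c, d]`, `a d - b c = 1` (`S24.Hermite.SL_det_eq`, file `S24/Hermite.lean`; or `Matrix.det_fin_two`), `g⁻¹ = !![d, -b; -c, a]`
(`Matrix.SpecialLinearGroup.SL2_inv_expl`):
* `γ = S = !![0, -1; 1, 0]` : `(g⁻¹ S g) 1 0 = a² + c²`.  If `4 ∣ a² + c²` then `a, c` are both even; if `3 ∣ a² + c²` then `3 ∣ a, c`;
  both contradict `a d - b c = 1`.  (Reduce mod 4 resp. mod 3: `Int.emod_emod_of_dvd`, `decide` on `ZMod 4`, `ZMod 3`, or `omega` after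
  case distinction on `a % 4`, `c % 4`.)
* `γ = S T = !![0, -1; 1, 1]` : `(g⁻¹ S T g) 1 0 = a² + a c + c²`.  `2 ∣ a² + ac + c²` forces `a, c` even;
  `9 ∣ a² + ac + c²` forces `3 ∣ a, c`  (`a² + ac + c² ≡ (a - c)² mod 3`, so `a = c + 3 k`, then `a² + ac + c² = 3 c² + 9 (..)`, so `3 ∣ c`).
-/

set_option autoImplicit false

open scoped MatrixGroups

namespace Fermat.Agent.S36.Mod.Unram

open Fermat.Agent.S24 (XN)

theorem Free_det (g : SL(2, ℤ)) : g 0 0 * g 1 1 - g 0 1 * g 1 0 = 1 := by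
  have h := g.det_coe
  rwa [Matrix.det_fin_two] at h

theorem Free_inv (γ : SL(2, ℤ)) :
    (γ⁻¹ : SL(2, ℤ)) 0 0 = γ 1 1 ∧ (γ⁻¹ : SL(2, ℤ)) 0 1 = - γ 0 1 ∧
    (γ⁻¹ : SL(2, ℤ)) 1 0 = - γ 1 0 ∧ (γ⁻¹ : SL(2, ℤ)) 1 1 = γ 0 0 := by
  simp [Matrix.SpecialLinearGroup.coe_inv, Matrix.adjugate_fin_two]

/-- a fixed point of `γ` on `XN N` gives a conjugate of `γ` in `Γ₀(N)`. -/
theorem Free_dvd_of_fixed {N : ℕ} (γ g : SL(2, ℤ)) (h : γ • (g : XN N) = (g : XN N)) :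
    (N : ℤ) ∣ (g⁻¹ * (γ * g)) 1 0 := by
  have h1 : ((g : SL(2, ℤ)) : XN N) = ((γ * g : SL(2, ℤ)) : XN N) := h.symm
  have h2 := QuotientGroup.eq.mp h1
  rw [CongruenceSubgroup.Gamma0_mem, ZMod.intCast_zmod_eq_zero_iff_dvd] at h2
  exact h2

theorem Free_S_entry (g : SL(2, ℤ)) :
    (g⁻¹ * (ModularGroup.S * g)) 1 0 = g 0 0 ^ 2 + g 1 0 ^ 2 := by
  obtain ⟨i1, i2, i3, i4⟩ := Free_inv g
  simp only [Matrix.SpecialLinearGroup.coe_mul, Matrix.mul_apply, Fin.sum_univ_two, i3, i4,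
    ModularGroup.coe_S]
  simp
  ring

theorem Free_ST_entry (g : SL(2, ℤ)) :
    (g⁻¹ * (ModularGroup.S * ModularGroup.T * g)) 1 0 = g 0 0 ^ 2 + g 0 0 * g 1 0 + g 1 0 ^ 2 := by
  obtain ⟨i1, i2, i3, i4⟩ := Free_inv g
  simp only [Matrix.SpecialLinearGroup.coe_mul, Matrix.mul_apply, Fin.sum_univ_two, i3, i4,
    ModularGroup.coe_S, ModularGroup.coe_T]
  simp
  ring

theorem Free_arith_S4 (a b c d : ℤ) (hdet : a * d - b * c = 1) (h : (4 : ℤ) ∣ a ^ 2 + c ^ 2) :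
    False := by
  have key : ∀ x y : ZMod 4, x ^ 2 + y ^ 2 = 0 → 2 * x = 0 ∧ 2 * y = 0 := by decide
  have h1 : ((a : ZMod 4)) ^ 2 + (c : ZMod 4) ^ 2 = 0 := by
    have := (ZMod.intCast_zmod_eq_zero_iff_dvd (a ^ 2 + c ^ 2) 4).mpr (by exact_mod_cast h)
    push_cast at this
    exact this
  obtain ⟨h2, h3⟩ := key _ _ h1
  have h4 : (a : ZMod 4) * d - b * c = 1 := by
    have := congrArg (Int.cast : ℤ → ZMod 4) hdet
    push_cast at this
    exact this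
  have h5 : (2 : ZMod 4) * 1 = 0 := by
    rw [← h4]
    linear_combination (d : ZMod 4) * h2 - (b : ZMod 4) * h3
  exact absurd h5 (by decide)

theorem Free_arith_S3 (a b c d : ℤ) (hdet : a * d - b * c = 1) (h : (3 : ℤ) ∣ a ^ 2 + c ^ 2) :
    False := by
  have key : ∀ x y : ZMod 3, x ^ 2 + y ^ 2 = 0 → x = 0 ∧ y = 0 := by decide
  have h1 : ((a : ZMod 3)) ^ 2 + (c : ZMod 3) ^ 2 = 0 := by
    have := (ZMod.intCast_zmod_eq_zero_iff_dvd (a ^ 2 + c ^ 2) 3).mpr (by exact_mod_cast h)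
    push_cast at this
    exact this
  obtain ⟨h2, h3⟩ := key _ _ h1
  have h4 : (a : ZMod 3) * d - b * c = 1 := by
    have := congrArg (Int.cast : ℤ → ZMod 3) hdet
    push_cast at this
    exact this
  have h5 : (1 : ZMod 3) = 0 := by
    rw [← h4]
    linear_combination (d : ZMod 3) * h2 - (b : ZMod 3) * h3
  exact absurd h5 (by decide)

theorem Free_arith_ST2 (a b c d : ℤ) (hdet : a * d - b * c = 1)
    (h : (2 : ℤ) ∣ a ^ 2 + a * c + c ^ 2) : False := by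
  have key : ∀ x y : ZMod 2, x ^ 2 + x * y + y ^ 2 = 0 → x = 0 ∧ y = 0 := by decide
  have h1 : ((a : ZMod 2)) ^ 2 + (a : ZMod 2) * c + (c : ZMod 2) ^ 2 = 0 := by
    have := (ZMod.intCast_zmod_eq_zero_iff_dvd (a ^ 2 + a * c + c ^ 2) 2).mpr (by exact_mod_cast h)
    push_cast at this
    exact this
  obtain ⟨h2, h3⟩ := key _ _ h1
  have h4 : (a : ZMod 2) * d - b * c = 1 := by
    have := congrArg (Int.cast : ℤ → ZMod 2) hdet
    push_cast at this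
    exact this
  have h5 : (1 : ZMod 2) = 0 := by
    rw [← h4]
    linear_combination (d : ZMod 2) * h2 - (b : ZMod 2) * h3
  exact absurd h5 (by decide)

theorem Free_arith_ST9 (a b c d : ℤ) (hdet : a * d - b * c = 1)
    (h : (9 : ℤ) ∣ a ^ 2 + a * c + c ^ 2) : False := by
  have key : ∀ x y : ZMod 9, x ^ 2 + x * y + y ^ 2 = 0 → 3 * x = 0 ∧ 3 * y = 0 := by decide
  have h1 : ((a : ZMod 9)) ^ 2 + (a : ZMod 9) * c + (c : ZMod 9) ^ 2 = 0 := by
    have := (ZMod.intCast_zmod_eq_zero_iff_dvd (a ^ 2 + a * c + c ^ 2) 9).mpr (by exact_mod_cast h)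
    push_cast at this
    exact this
  obtain ⟨h2, h3⟩ := key _ _ h1
  have h4 : (a : ZMod 9) * d - b * c = 1 := by
    have := congrArg (Int.cast : ℤ → ZMod 9) hdet
    push_cast at this
    exact this
  have h5 : (3 : ZMod 9) * 1 = 0 := by
    rw [← h4]
    linear_combination (d : ZMod 9) * h2 - (b : ZMod 9) * h3
  exact absurd h5 (by decide)

theorem S_smul_ne {N : ℕ} (hN : 4 ∣ N ∨ 9 ∣ N) (a : XN N) : ModularGroup.S • a ≠ a := by
  induction a using QuotientGroup.induction_on with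
  | H g =>
    intro h
    have h1 := Free_dvd_of_fixed _ g h
    rw [Free_S_entry] at h1
    rcases hN with hN | hN
    · exact Free_arith_S4 _ _ _ _ (Free_det g) ((Int.natCast_dvd_natCast.mpr hN).trans h1)
    · exact Free_arith_S3 _ _ _ _ (Free_det g)
        ((Int.natCast_dvd_natCast.mpr ((by norm_num : 3 ∣ 9).trans hN)).trans h1)

theorem ST_smul_ne {N : ℕ} (hN : 4 ∣ N ∨ 9 ∣ N) (a : XN N) :
    (ModularGroup.S * ModularGroup.T) • a ≠ a := by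
  induction a using QuotientGroup.induction_on with
  | H g =>
    intro h
    have h1 := Free_dvd_of_fixed _ g h
    rw [Free_ST_entry] at h1
    rcases hN with hN | hN
    · exact Free_arith_ST2 _ _ _ _ (Free_det g)
        ((Int.natCast_dvd_natCast.mpr ((by norm_num : 2 ∣ 4).trans hN)).trans h1)
    · exact Free_arith_ST9 _ _ _ _ (Free_det g) ((Int.natCast_dvd_natCast.mpr hN).trans h1)

end Fermat.Agent.S36.Mod.Unram
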