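import Fermat.Agent.S36.Mod.Unram.Free
import Fermat.Agent.S36.Mod.Unram.Count
import Fermat.Agent.S24.Packages
import Fermat.Agent.S36.Norm.Levels
import Fermat.Agent.S24.FF.DegOne

/-!
# S36 / Mod / Unram / NonCusp : `X₀(M) → X₀(N)` is unramified off the cusps if `4 ∣ N` or `9 ∣ N`   (over `ℚ̄`)
TASK S36/M3-NonCusp.

* `ord_j_sub_generic` : `package_generic N c h0 h1` + `exists_emb` (`E₀ = 1`): `1 = ord (σ a u) = c * ord_Q u`.
* `ord_j_sub_1728`    : `package_I N` + `exists_emb` + `ord_eq_card_orbit` (`E₀ = 2`, `ζ = -1`, `γ₀ = S`): `c * ord_Q u = 2` and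
  `ord_Q u = #orbit ≥ 2` because `a ≠ S • a` both lie in the orbit (`S_smul_ne`; `Nat.card`/`Set.ncard` of a set containing two distinct
  elements; `XN N` is finite: `S24` has the instance used in `S24.lean`).
* `ord_j_zero`        : the same with `package_rho N`, `E₀ = 3`, `γ₀ = S * T` (`c * ord = 3`, `ord ≥ 2`).
  HOW TO FEED THE PACKAGES: see the proof of `S24.degree_canonical` in `Fermat/Agent/S24.lean` l. 60-90 and the wrapper
  `S24.card_zeroPlaces_of_package` (`S24/Counting.lean` l. 513: passage from `K⟮x⟯` to `K⟮u⟯`, `u = x - c`: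
  `FF.adjoin_simple_sub_algebraMap`, `FF.finiteDimensional_congr`, `FF.finrank_congr`, `Counting.sigma_eq_on_adjoin`).
* `ramificationIndexAlong_eq_one`, `exists_ord_eq_one_nonCusp` : `φ = dg N M 1 h`, `φ (jN N) = jN M` (`Subtype.ext (coe_dg_one ..)`), integral: `finHom_dg` /
  `Algebra.IsIntegral.of_finite` (see `S36/Norm/Kum.lean` for the way `Place.restrictAlong (dg ..)` is used).
  `0 ≤ Q.ord (jN M)` gives `c : Kb` with `jN M = c` (impossible, `transcendental_jN`) or `0 < Q.ord (jN M - c)` (`S24.FF` `DegOne.lean` l. 197 / `S17/FF/Defs.lean` l. 40).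
  `Q₀ := Q.restrictAlong φ _`, `e := Place.ramificationIndexAlong φ Q`; `Place.ord_restrictAlong`: `Q.ord (φ f) = e * Q₀.ord f`.
  With `f = jN N - c`: `E = e * Q₀.ord f`, so `0 < Q₀.ord f`, so `Q₀.ord f = E` (same `E ∈ {1,2,3}` at both levels, `4 ∣ N ∣ M`), `e = 1`.
  Then `S24.FF.exists_ord_eq_one Q₀`.
-/

set_option autoImplicit false

open AlgebraicCurve ModularCurve
open scoped MatrixGroups IntermediateField

namespace Fermat.Agent.S36.Mod.Unram

open Fermat.Agent.S24 (Kb FN XN jN)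
open Fermat.Agent.S36.Norm (dg)

section Wrap

variable {K F : Type*} [Field K] [IsAlgClosed K] [CharZero K] [Field F] [Algebra K F]
  [Algebra K ℂ]

/-- `exists_emb` + `ord_eq_card_orbit`, with the package given at `x`, `K⟮u⟯ = K⟮x⟯`. -/
theorem NonCusp_wrap (x u : F) (hx : Transcendental K x)
    [FiniteDimensional K⟮x⟯ F] (hux : K⟮u⟯ = K⟮x⟯)
    {G X : Type*} [Group G] [MulAction G X] [Finite X]
    (σ : X → F →ₐ[K] LaurentSeries ℂ) (hσ : Function.Injective σ)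
    (hcard : Nat.card X = Module.finrank K⟮x⟯ F)
    (hσx : ∀ a b, σ a x = σ b x)
    (E₀ : ℕ) (hE₀ : 0 < E₀) (hord : ∀ a, (σ a u).order = (E₀ : ℤ))
    (ζ : ℂ) (hζ : IsPrimitiveRoot ζ E₀) (γ₀ : G)
    (hΘ : ∀ a f (k : ℤ), (σ (γ₀ • a) f).coeff k = ζ ^ k * (σ a f).coeff k)
    (v : Place K F) (hv : 0 < v.ord u) :
    ∃ (a : X) (c : ℕ), (c : ℤ) * v.ord u = E₀ ∧
      v.ord u = (Nat.card (MulAction.orbit (Subgroup.zpowers γ₀) a) : ℤ) := by
  have hu : Transcendental K u := by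
    intro halg
    apply hx
    have h1 : Algebra.IsAlgebraic K K⟮u⟯ :=
      IntermediateField.isAlgebraic_adjoin_simple halg.isIntegral
    have hxmem : x ∈ K⟮u⟯ := by rw [hux]; exact IntermediateField.mem_adjoin_simple_self K x
    have h2 : IsAlgebraic K (⟨x, hxmem⟩ : K⟮u⟯) := Algebra.IsAlgebraic.isAlgebraic _
    exact (IntermediateField.isAlgebraic_iff).mp h2
  have hu0 : u ≠ 0 := by
    rintro rfl
    exact hu isAlgebraic_zero
  have : FiniteDimensional K⟮u⟯ F := Fermat.Agent.S24.FF.finiteDimensional_congr K hux.symm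
  have humem : u ∈ K⟮x⟯ := by rw [← hux]; exact IntermediateField.mem_adjoin_simple_self K u
  have hcard' : Nat.card X = Module.finrank K⟮u⟯ F := by
    rw [hcard, Fermat.Agent.S24.FF.finrank_congr K hux.symm]
  have hσu : ∀ a b, σ a u = σ b u := fun a b =>
    Fermat.Agent.S24.Counting.sigma_eq_on_adjoin (σ a) (σ b) (hσx a b) ⟨u, humem⟩
  obtain ⟨a, c, hc, hac⟩ := exists_emb u hu σ hσ hcard' hσu E₀ hE₀ hord v hv
  refine ⟨a, c, ?_, ?_⟩
  · rw [← hac u hu0, hord]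
  · exact ord_eq_card_orbit u hu σ hσ hcard' hσu E₀ hE₀ hord ζ hζ γ₀ hΘ a v c hc hac

end Wrap

/-- an orbit containing two distinct points has at least two elements. -/
theorem NonCusp_two_le {G X : Type*} [Group G] [MulAction G X] [Finite X] (γ₀ : G) (a : X)
    (h : γ₀ • a ≠ a) : 2 ≤ Nat.card (MulAction.orbit (Subgroup.zpowers γ₀) a) := by
  classical
  have : Fintype X := Fintype.ofFinite X
  rw [Nat.card_eq_fintype_card]
  have h1 : (1 : ℕ) < Fintype.card (MulAction.orbit (Subgroup.zpowers γ₀) a) := by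
    rw [Fintype.one_lt_card_iff]
    refine ⟨⟨γ₀ • a, ⟨⟨γ₀, Subgroup.mem_zpowers γ₀⟩, rfl⟩⟩, ⟨a, MulAction.mem_orbit_self a⟩, ?_⟩
    intro h2
    exact h (congrArg Subtype.val h2)
  exact h1

theorem ord_j_sub_generic (N : ℕ) [NeZero N] (c : Kb) (h0 : c ≠ 0) (h1 : c ≠ 1728)
    (Q : Place Kb (FN N)) (hQ : 0 < Q.ord (jN N - algebraMap Kb (FN N) c)) :
    Q.ord (jN N - algebraMap Kb (FN N) c) = 1 := by
  have := Fermat.Agent.S24.finiteDimensional_FN N
  have hx := Fermat.Agent.S24.transcendental_jN N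
  have hn := Fermat.Agent.S24.finrank_FN N
  obtain ⟨σ, hσ, hσx, hord⟩ := Fermat.Agent.S24.package_generic N c h0 h1
  obtain ⟨a, k, hk, -⟩ := NonCusp_wrap (K := Kb) (jN N) (jN N - algebraMap Kb (FN N) c) hx
    (Fermat.Agent.S24.FF.adjoin_simple_sub_algebraMap Kb _ _) (G := SL(2, ℤ)) σ hσ hn.symm hσx
    1 one_pos (by simpa using hord) 1 IsPrimitiveRoot.one 1 (by simp) Q hQ
  have h2 : Q.ord (jN N - algebraMap Kb (FN N) c) ∣ 1 := ⟨k, by rw [mul_comm]; exact_mod_cast hk.symm⟩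
  exact Int.eq_one_of_dvd_one hQ.le h2

theorem ord_j_sub_1728 (N : ℕ) [NeZero N] (hN : 4 ∣ N ∨ 9 ∣ N)
    (Q : Place Kb (FN N)) (hQ : 0 < Q.ord (jN N - algebraMap Kb (FN N) 1728)) :
    Q.ord (jN N - algebraMap Kb (FN N) 1728) = 2 := by
  have := Fermat.Agent.S24.finiteDimensional_FN N
  have hx := Fermat.Agent.S24.transcendental_jN N
  have hn := Fermat.Agent.S24.finrank_FN N
  obtain ⟨σ, hσ, hσx, hord, hΘ⟩ := Fermat.Agent.S24.package_I N
  obtain ⟨a, k, hk, hcard⟩ := NonCusp_wrap (K := Kb) (jN N) (jN N - algebraMap Kb (FN N) 1728) hx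
    (Fermat.Agent.S24.FF.adjoin_simple_sub_algebraMap Kb _ _) (G := SL(2, ℤ)) σ hσ hn.symm hσx
    2 two_pos (by simpa using hord) (-1) (IsPrimitiveRoot.neg_one 0 (by norm_num))
    ModularGroup.S hΘ Q hQ
  have h2 := NonCusp_two_le (ModularGroup.S) a (S_smul_ne hN a)
  have h3 : (2 : ℤ) ≤ Q.ord (jN N - algebraMap Kb (FN N) 1728) := by
    rw [hcard]; exact_mod_cast h2
  have h4 : Q.ord (jN N - algebraMap Kb (FN N) 1728) ∣ 2 :=
    ⟨k, by rw [mul_comm]; exact_mod_cast hk.symm⟩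
  have h5 := Int.le_of_dvd (by norm_num) h4
  omega

theorem ord_j_zero (N : ℕ) [NeZero N] (hN : 4 ∣ N ∨ 9 ∣ N)
    (Q : Place Kb (FN N)) (hQ : 0 < Q.ord (jN N)) : Q.ord (jN N) = 3 := by
  have := Fermat.Agent.S24.finiteDimensional_FN N
  have hx := Fermat.Agent.S24.transcendental_jN N
  have hn := Fermat.Agent.S24.finrank_FN N
  obtain ⟨σ, ζ, hσ, hζ, hσx, hord, hΘ⟩ := Fermat.Agent.S24.package_rho N
  obtain ⟨a, k, hk, hcard⟩ := NonCusp_wrap (K := Kb) (jN N) (jN N) hx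
    rfl (G := SL(2, ℤ)) σ hσ hn.symm hσx
    3 (by norm_num) (by simpa using hord) ζ hζ _ hΘ Q hQ
  have h2 := NonCusp_two_le (ModularGroup.S * ModularGroup.T) a (ST_smul_ne hN a)
  have h3 : (2 : ℤ) ≤ Q.ord (jN N) := by
    rw [hcard]; exact_mod_cast h2
  have h4 : Q.ord (jN N) ∣ 3 :=
    ⟨k, by rw [mul_comm]; exact_mod_cast hk.symm⟩
  have h5 := Int.le_of_dvd (by norm_num) h4
  have h6 : Q.ord (jN N) ≠ 2 := by
    intro h
    rw [h] at h4
    omega
  omega

/-- the order of vanishing of `j - c` at a zero only depends on `c`. -/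
theorem NonCusp_ord (N : ℕ) [NeZero N] (hN : 4 ∣ N ∨ 9 ∣ N) (c : Kb)
    (Q : Place Kb (FN N)) (hQ : 0 < Q.ord (jN N - algebraMap Kb (FN N) c)) :
    Q.ord (jN N - algebraMap Kb (FN N) c) = if c = 0 then 3 else if c = 1728 then 2 else 1 := by
  split_ifs with h0 h1
  · subst h0
    rw [map_zero, sub_zero] at hQ ⊢
    exact ord_j_zero N hN Q hQ
  · subst h1
    exact ord_j_sub_1728 N hN Q hQ
  · exact ord_j_sub_generic N c h0 h1 Q hQ

/-- **(m3), non cuspidal places, over `ℚ̄`.** -/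
theorem exists_ord_eq_one_nonCusp (N M : ℕ) [NeZero N] [NeZero M] (h : 1 * N ∣ M)
    (hN : 4 ∣ N ∨ 9 ∣ N) (Q : Place Kb (FN M)) (hQ : 0 ≤ Q.ord (jN M)) :
    ∃ f : FN N, Q.ord (dg N M 1 h f) = 1 := by
  have := Fermat.Agent.S24.finiteDimensional_FN M
  have hx := Fermat.Agent.S24.transcendental_jN M
  have hM : 4 ∣ M ∨ 9 ∣ M := by
    have hNM : N ∣ M := by simpa using h
    exact hN.imp (fun h4 => h4.trans hNM) (fun h9 => h9.trans hNM)
  have hint : (dg N M 1 h).toRingHom.IsIntegral :=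
    Fermat.Agent.ES.H1Degree.isIntegral_of_finiteAlong _ (Fermat.Agent.S36.Norm.finHom_dg N M 1 h)
  have hj : dg N M 1 h (jN N) = jN M := Subtype.ext (Fermat.Agent.S36.Norm.coe_dg_one N M h _)
  obtain ⟨c, hc | hc⟩ := Fermat.Agent.S24.FF.exists_sub_ord_pos Kb (jN M) hx Q hQ
  · exact absurd (hc ▸ isAlgebraic_algebraMap c) hx
  · set Q₀ := Q.restrictAlong (dg N M 1 h) hint with hQ₀
    set e := Place.ramificationIndexAlong (dg N M 1 h) Q with he
    have h1 := Place.ord_restrictAlong (dg N M 1 h) hint Q (jN N - algebraMap Kb (FN N) c)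
    rw [map_sub, hj, AlgHom.commutes, ← hQ₀, ← he] at h1
    have h2 : 0 < Q₀.ord (jN N - algebraMap Kb (FN N) c) := by
      rw [h1] at hc
      have : (0 : ℤ) ≤ e := Int.natCast_nonneg e
      by_contra hneg
      rw [not_lt] at hneg
      nlinarith
    rw [NonCusp_ord M hM c Q hc, NonCusp_ord N hN c Q₀ h2] at h1
    have h3 : (e : ℤ) = 1 := by
      split_ifs at h1 <;> omega
    obtain ⟨π, hπ⟩ := Fermat.Agent.S24.FF.exists_ord_eq_one Q₀
    refine ⟨π, ?_⟩
    rw [Place.ord_restrictAlong (dg N M 1 h) hint Q π, ← hQ₀, ← he, h3, hπ, mul_one]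

end Fermat.Agent.S36.Mod.Unram
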